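import Fermat.Agent.GlaubermanCorrespondence.Main

/-!
# The classes fixed by the acting group

The invariant conjugacy classes of `G` correspond to the conjugacy classes of the fixed points.
-/

set_option autoImplicit false
set_option linter.style.haveILetI false

noncomputable section

open Finset
open scoped Classical

namespace FA.GlaubermanCorrespondence

variable {A : Type*} [Group A] {G : Type*} [Group G] [Fintype G] [Finite A] {p : ℕ}
  [hp : Fact p.Prime] (φ : A →* MulAut G) (hA : IsPGroup p A) (hco : ¬ p ∣ Nat.card G)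

include hA hco

/-- **An invariant class contains a fixed point.** -/
theorem exists_fixedPts_of_invariant {x : G} (h : ∀ a, IsConj x (φ a x)) :
    ∃ c ∈ fixedPts φ, IsConj x c := by
  letI : MulAction A G := MulAction.compHom G φ
  set s := (univ : Finset G).filter fun y => IsConj x y
  have hs : ∀ (a : A), ∀ y ∈ s, a • y ∈ s := fun a y hy => mem_filter.2 ⟨mem_univ _, by
    show IsConj x (φ a y)
    exact (h a).trans ((φ a).toMonoidHom.map_isConj (mem_filter.1 hy).2)⟩
  have hcard : s.card = (Subgroup.centralizer ({x} : Set G)).index := by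
    rw [Subgroup.index, ← Fintype.card_coe, ← Nat.card_eq_fintype_card]
    have e1 : s ≃ MulAction.orbit (ConjAct G) x :=
      { toFun := fun y => ⟨y, ConjAct.mem_orbit_conjAct.2 (mem_filter.1 y.2).2.symm⟩
        invFun := fun y => ⟨y, mem_filter.2 ⟨mem_univ _,
          (ConjAct.mem_orbit_conjAct.1 y.2).symm⟩⟩
        left_inv := fun y => rfl
        right_inv := fun y => rfl }
    rw [Nat.card_congr e1, Nat.card_congr (MulAction.orbitEquivQuotientStabilizer (ConjAct G) x)]
    exact congrArg (fun K : Subgroup G => Nat.card (G ⧸ K))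
      (ConjAct.stabilizer_eq_centralizer x)
  have h0 := sum_eq_sum_fixedPoints hA s hs (f := fun _ => (1 : ZMod p)) fun _ _ _ => rfl
  rw [sum_const, sum_const, nsmul_one, nsmul_one] at h0
  obtain ⟨c, hc⟩ : (s.filter fun y => y ∈ MulAction.fixedPoints A G).Nonempty := by
    refine card_pos.1 (Nat.pos_of_ne_zero fun hz => ?_)
    rw [hz, Nat.cast_zero, ZMod.natCast_eq_zero_iff, hcard] at h0
    exact hco (h0.trans (Subgroup.index_dvd_card _))
  exact ⟨c, (mem_filter.1 hc).2, (mem_filter.1 (mem_filter.1 hc).1).2⟩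

/-- **Invariant classes are classes of the fixed points.** -/
theorem card_invariant_classes :
    Nat.card (ConjClasses (fixedPts φ)) =
      Nat.card {κ : ConjClasses G // ∀ a, ConjClasses.map (φ a).toMonoidHom κ = κ} := by
  refine Nat.card_congr (Equiv.ofBijective (fun κ =>
    ⟨ConjClasses.map (fixedPts φ).subtype κ, fun a => ?_⟩) ⟨fun κ κ' e => ?_, fun κ => ?_⟩)
  · induction κ using Quotient.inductionOn with
    | _ c => exact congrArg ConjClasses.mk (c.2 a)
  · induction κ using Quotient.inductionOn with
    | _ c =>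
    induction κ' using Quotient.inductionOn with
    | _ c' =>
    obtain ⟨g, hg⟩ := isConj_iff.1 (ConjClasses.mk_eq_mk_iff_isConj.1 (congrArg Subtype.val e))
    obtain ⟨d, hd, hd'⟩ := exists_conj_fixedPts φ hA hco c.2 c'.2 hg
    exact ConjClasses.mk_eq_mk_iff_isConj.2 (isConj_iff.2 ⟨⟨d, hd⟩, Subtype.ext hd'⟩)
  · obtain ⟨κ, hκ⟩ := κ
    induction κ using Quotient.inductionOn with
    | _ x =>
    obtain ⟨c, hc, hxc⟩ := exists_fixedPts_of_invariant φ hA hco (x := x) fun a =>
      (ConjClasses.mk_eq_mk_iff_isConj.1 (hκ a)).symm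
    exact ⟨ConjClasses.mk ⟨c, hc⟩, Subtype.ext (ConjClasses.mk_eq_mk_iff_isConj.2 hxc.symm)⟩

end FA.GlaubermanCorrespondence

end
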