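import Fermat.Agent.GlaubermanCorrespondence.Orbits
import Fermat.Agent.SuzukiCA.Induced

/-!
# The Glauberman correspondence for a `p`-group

For a `p`-group `A` acting on `G` of order prime to `p`, with fixed points `C`, an invariant
irreducible character restricted to `C` satisfies the functional equation of `C` modulo `p`.
-/

set_option autoImplicit false
set_option linter.style.haveILetI false

noncomputable section

open Finset FA.FrobeniusGroups FA.CharacterTheory
open FA.CNGroups (unityRing irr_mem_unityRing exists_residue)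
open FA.SuzukiCA (res mult mult_spec pairing_eq_sum induced_conj)
open scoped Classical

namespace FA.GlaubermanCorrespondence

variable {A : Type*} [Group A] {G : Type*} [Group G]

/-- The fixed points. -/
def fixedPts (φ : A →* MulAut G) : Subgroup G where
  carrier := {g | ∀ a, φ a g = g}
  one_mem' a := map_one _
  mul_mem' {x y} hx hy a := by rw [map_mul, hx a, hy a]
  inv_mem' {x} hx a := by rw [map_inv, hx a]

/-- Invariant functions. -/
def IsInv (φ : A →* MulAut G) (χ : G → ℂ) : Prop := ∀ a g, χ (φ a g) = χ g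

variable [Fintype G] [Finite A] {p : ℕ} [hp : Fact p.Prime] (φ : A →* MulAut G)
  (hA : IsPGroup p A) (hco : ¬ p ∣ Nat.card G)

include hA

/-- Modulo `p` only the fixed points count. -/
theorem sum_eq_sum_fixedPts {k : Type*} [CommRing k] [CharP k p] {f : G → k}
    (hf : ∀ a g, f (φ a g) = f g) : ∑ g, f g = ∑ c : fixedPts φ, f c := by
  letI : MulAction A G := MulAction.compHom G φ
  rw [sum_eq_sum_fixedPoints hA univ (fun _ _ _ => mem_univ _) fun a x _ => hf a x]
  exact sum_subtype _ (p := (· ∈ fixedPts φ)) (fun x => by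
    simp only [mem_filter, mem_univ, true_and]
    exact Iff.rfl) f

theorem card_eq_card_fixedPts {k : Type*} [CommRing k] [CharP k p] :
    (Nat.card G : k) = (Nat.card (fixedPts φ) : k) := by
  have h := sum_eq_sum_fixedPts φ hA (f := fun _ : G => (1 : k)) fun _ _ => rfl
  simpa [Nat.card_eq_fintype_card] using h

include hco

omit hA [Finite A] [Fintype G] hp in
theorem not_dvd_card_fixedPts : ¬ p ∣ Nat.card (fixedPts φ) :=
  fun h => hco (h.trans (fixedPts φ).card_subgroup_dvd_card)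

/-- **Fixed points conjugate in `G` are conjugate by a fixed point.** -/
theorem exists_conj_fixedPts {x y : G} (hx : x ∈ fixedPts φ) (hy : y ∈ fixedPts φ) {g : G}
    (hg : g * x * g⁻¹ = y) : ∃ c ∈ fixedPts φ, c * x * c⁻¹ = y := by
  letI : MulAction A G := MulAction.compHom G φ
  set s := (univ : Finset G).filter fun h => h * x * h⁻¹ = y
  have hs : ∀ (a : A), ∀ h ∈ s, a • h ∈ s := fun a h hh => mem_filter.2 ⟨mem_univ _, by
    show φ a h * x * (φ a h)⁻¹ = y
    conv_lhs => rw [← hx a, ← map_inv, ← map_mul, ← map_mul, (mem_filter.1 hh).2, hy a]⟩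
  have hcard : s.card = Nat.card (Subgroup.centralizer ({x} : Set G)) := by
    rw [← Fintype.card_coe, ← Nat.card_eq_fintype_card]
    exact Nat.card_congr
      { toFun := fun h => ⟨g⁻¹ * h, Subgroup.mem_centralizer_singleton_iff.2 (by
          have h1 : (h : G) * x * (h : G)⁻¹ = g * x * g⁻¹ := (mem_filter.1 h.2).2.trans hg.symm
          calc g⁻¹ * h * x = g⁻¹ * ((h : G) * x * (h : G)⁻¹) * h := by group
            _ = g⁻¹ * (g * x * g⁻¹) * h := by rw [h1]
            _ = x * (g⁻¹ * h) := by group)⟩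
        invFun := fun c => ⟨g * c, mem_filter.2 ⟨mem_univ _, by
          rw [← hg]
          calc g * (c : G) * x * (g * c)⁻¹ = g * ((c : G) * x) * (g * c)⁻¹ := by group
            _ = g * (x * (c : G)) * (g * c)⁻¹ := by
              rw [Subgroup.mem_centralizer_singleton_iff.1 c.2]
            _ = g * x * g⁻¹ := by group⟩⟩
        left_inv := fun h => Subtype.ext (mul_inv_cancel_left _ _)
        right_inv := fun c => Subtype.ext (inv_mul_cancel_left _ _) }
  have h := sum_eq_sum_fixedPoints hA s hs (f := fun _ => (1 : ZMod p)) fun _ _ _ => rfl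
  rw [sum_const, sum_const, nsmul_one, nsmul_one] at h
  obtain ⟨c, hc⟩ : (s.filter fun h => h ∈ MulAction.fixedPoints A G).Nonempty := by
    refine card_pos.1 (Nat.pos_of_ne_zero fun h0 => ?_)
    rw [h0, Nat.cast_zero, ZMod.natCast_eq_zero_iff, hcard] at h
    exact hco (h.trans (Subgroup.card_subgroup_dvd_card _))
  exact ⟨c, (mem_filter.1 hc).2, (mem_filter.1 (mem_filter.1 hc).1).2⟩

variable {χ : G → ℂ} (hχ : χ ∈ irr G) (hinv : IsInv φ χ)

include hχ hinv

omit hinv hA hco hχ [Finite A] in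
/-- Values on the fixed points lie in the ring of `G`. -/
theorem mem_unityRing_sub {β : fixedPts φ → ℂ} (hβ : β ∈ irr (fixedPts φ)) (c : fixedPts φ) :
    β c ∈ unityRing (Nat.card G) := by
  refine Subring.closure_mono ?_ (irr_mem_unityRing hβ c)
  intro z (hz : z ^ Nat.card (fixedPts φ) = 1)
  obtain ⟨d, hd⟩ := (fixedPts φ).card_subgroup_dvd_card
  show z ^ Nat.card G = 1
  rw [hd, pow_mul, hz, one_pow]

/-- **The multiplicities multiply like the constituents of an irreducible character.** -/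
theorem mult_mul_mult {k : Type} [Field k] [CharP k p] (π : unityRing (Nat.card G) →+* k)
    {d : ℕ} (hd : χ 1 = d) {β γ : fixedPts φ → ℂ} (hβ : β ∈ irr (fixedPts φ))
    (hγ : γ ∈ irr (fixedPts φ)) {b : ℕ} (hb : β 1 = b) :
    (mult (fixedPts φ) χ β : k) * mult (fixedPts φ) χ γ * b =
      if β = γ then (d : k) * mult (fixedPts φ) χ β else 0 := by
  let v : G → unityRing (Nat.card G) := fun g => ⟨χ g, irr_mem_unityRing hχ g⟩
  let bx : fixedPts φ → unityRing (Nat.card G) := fun x => ⟨β x⁻¹, mem_unityRing_sub φ hβ _⟩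
  let gy : fixedPts φ → unityRing (Nat.card G) := fun x => ⟨γ x⁻¹, mem_unityRing_sub φ hγ _⟩
  have hcl : ∀ g x, res (fixedPts φ) χ (g * x * g⁻¹) = res (fixedPts φ) χ x := fun g x => by
    show χ ((g * x * g⁻¹ : (fixedPts φ)) : G) = χ x
    push_cast
    exact irr_conj hχ _ _
  have hres : ∀ z, res (fixedPts φ) χ z = ∑ δ ∈ irr (fixedPts φ),
      (mult (fixedPts φ) χ δ : ℂ) * δ z := fun z => by
    rw [expansion hcl z]
    exact sum_congr rfl fun δ hδ => by rw [pairing_comm, mult_spec hχ hδ]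
  -- the two sums, exactly
  have hS : ∀ δ ∈ irr (fixedPts φ), ∑ x : fixedPts φ, χ x * δ x⁻¹ =
      (Nat.card (fixedPts φ) : ℂ) * mult (fixedPts φ) χ δ := fun δ hδ => by
    have h := mult_spec hχ hδ
    rw [pairing_comm, pairing, inv_mul_eq_iff_eq_mul₀ (Nat.cast_ne_zero.2 Nat.card_pos.ne')] at h
    exact h
  have horth : ∀ δ ∈ irr (fixedPts φ), ∀ ε ∈ irr (fixedPts φ), ∑ x : fixedPts φ, δ x * ε x⁻¹ =
      (Nat.card (fixedPts φ) : ℂ) * (if δ = ε then 1 else 0) := fun δ hδ ε hε => by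
    have h := pairing_irr hδ hε
    rw [pairing, inv_mul_eq_iff_eq_mul₀ (Nat.cast_ne_zero.2 Nat.card_pos.ne')] at h
    exact h
  have hT : (b : ℂ) * ∑ x : fixedPts φ, ∑ y : fixedPts φ,
      (∑ c : fixedPts φ, χ ((x : G) * (c * y * (c : G)⁻¹))) *
      β x⁻¹ * γ y⁻¹ =
        if β = γ then (Nat.card (fixedPts φ) : ℂ) ^ 3 * mult (fixedPts φ) χ β else 0 := by
    have hinner : ∀ x y : fixedPts φ, ∑ c : fixedPts φ, χ ((x : G) * (c * y * (c : G)⁻¹)) =
        ∑ δ ∈ irr (fixedPts φ),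
          (mult (fixedPts φ) χ δ : ℂ) * (Nat.card (fixedPts φ) * (δ x * δ y) / δ 1) := by
      intro x y
      rw [show ∑ c : fixedPts φ, χ ((x : G) * (c * y * (c : G)⁻¹)) =
          ∑ c : fixedPts φ, ∑ δ ∈ irr (fixedPts φ),
            (mult (fixedPts φ) χ δ : ℂ) * δ (x * (c * y * c⁻¹)) from
        sum_congr rfl fun c _ => hres (x * (c * y * c⁻¹)), sum_comm]
      refine sum_congr rfl fun δ hδ => ?_
      obtain ⟨e, he0, he⟩ := irr_one hδ
      rw [← mul_sum, card_mul_mul hδ x y, mul_div_cancel_left₀]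
      rw [he]
      exact Nat.cast_ne_zero.2 he0
    simp only [hinner, sum_mul]
    rw [sum_congr rfl fun (x : (fixedPts φ)) _ => sum_comm, sum_comm, mul_sum]
    have hterm : ∀ δ ∈ irr (fixedPts φ), (b : ℂ) * ∑ x : fixedPts φ, ∑ y : fixedPts φ,
        (mult (fixedPts φ) χ δ : ℂ) * (Nat.card (fixedPts φ) * (δ x * δ y) / δ 1) * β x⁻¹ * γ y⁻¹ =
        (b : ℂ) * (mult (fixedPts φ) χ δ * Nat.card (fixedPts φ) / δ 1) *
          ((∑ x : fixedPts φ, δ x * β x⁻¹) * ∑ y : fixedPts φ, δ y * γ y⁻¹) := fun δ _ => by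
      rw [sum_mul_sum, mul_sum, mul_sum]
      refine sum_congr rfl fun x _ => ?_
      rw [mul_sum, mul_sum]
      exact sum_congr rfl fun y _ => by ring
    rw [sum_congr rfl hterm, sum_congr rfl fun δ hδ => by
      rw [horth δ hδ β hβ, horth δ hδ γ hγ]]
    rw [sum_eq_single β (fun δ _ hne => by rw [if_neg hne]; ring)
      fun h => absurd hβ h, hb, if_pos rfl]
    split_ifs
    · obtain ⟨e, he0, he⟩ := irr_one hβ
      have : (b : ℂ) ≠ 0 := by rw [← hb, he]; exact Nat.cast_ne_zero.2 he0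
      field_simp
    · ring
  -- the congruence
  have hkey : ∀ x y : fixedPts φ, π ((Nat.card G : unityRing (Nat.card G)) * (v x * v y)) =
      π ((d : unityRing (Nat.card G)) * ∑ c : fixedPts φ, v ((x : G) * (c * y * (c : G)⁻¹))) := by
    intro x y
    have hexact : (Nat.card G : unityRing (Nat.card G)) * (v x * v y) =
        (d : unityRing (Nat.card G)) * ∑ g : G, v ((x : G) * (g * y * g⁻¹)) := Subtype.ext (by
      push_cast
      rw [card_mul_mul hχ, hd])
    rw [hexact, map_mul, map_mul, map_sum, map_sum]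
    congr 1
    refine sum_eq_sum_fixedPts φ hA (f := fun g => π (v ((x : G) * (g * y * g⁻¹)))) fun a g => ?_
    refine congrArg π (Subtype.ext ?_)
    show χ ((x : G) * (φ a g * y * (φ a g)⁻¹)) = χ ((x : G) * (g * y * g⁻¹))
    conv_rhs => rw [← hinv a, map_mul, map_mul, map_mul, map_inv, x.2 a, y.2 a]
  have h1 : π ((Nat.card G : unityRing (Nat.card G)) *
      ((∑ x : fixedPts φ, v x * bx x) * ∑ y : fixedPts φ, v y * gy y)) =
      π ((d : unityRing (Nat.card G)) *
      ∑ x : fixedPts φ, ∑ y : fixedPts φ,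
        (∑ c : fixedPts φ, v ((x : G) * (c * y * (c : G)⁻¹))) * bx x * gy y) := by
    rw [sum_mul_sum, mul_sum, mul_sum, map_sum, map_sum]
    refine sum_congr rfl fun x _ => ?_
    rw [mul_sum, mul_sum, map_sum, map_sum]
    refine sum_congr rfl fun y _ => ?_
    rw [show (Nat.card G : unityRing (Nat.card G)) * (v x * bx x * (v y * gy y)) =
        (Nat.card G : unityRing (Nat.card G)) * (v x * v y) * (bx x * gy y) by ring, map_mul, hkey,
      ← map_mul]
    congr 1
    ring
  have h2 : ∑ x : fixedPts φ, v x * bx x =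
      ((Nat.card (fixedPts φ) : ℤ) * mult (fixedPts φ) χ β : ℤ) :=
    Subtype.ext (by
    push_cast
    exact hS β hβ)
  have h3 : ∑ y : fixedPts φ, v y * gy y =
      ((Nat.card (fixedPts φ) : ℤ) * mult (fixedPts φ) χ γ : ℤ) :=
    Subtype.ext (by
    push_cast
    exact hS γ hγ)
  have h4 : (b : unityRing (Nat.card G)) *
      ∑ x : fixedPts φ, ∑ y : fixedPts φ,
        (∑ c : fixedPts φ, v ((x : G) * (c * y * (c : G)⁻¹))) * bx x * gy y =
      ((if β = γ then (Nat.card (fixedPts φ) : ℤ) ^ 3 * mult (fixedPts φ) χ β else 0 : ℤ) :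
        unityRing (Nat.card G)) :=
    Subtype.ext (by
      push_cast
      rw [hT]
      split_ifs <;> push_cast <;> rfl)
  rw [h2, h3, map_mul, map_mul, map_mul, map_natCast, map_natCast, map_intCast, map_intCast,
    card_eq_card_fixedPts φ hA] at h1
  have h5 := congrArg π h4
  rw [map_mul, map_natCast, map_intCast] at h5
  have hc0 : (Nat.card (fixedPts φ) : k) ≠ 0 := fun h =>
    not_dvd_card_fixedPts φ hco ((CharP.cast_eq_zero_iff k p _).1 h)
  refine mul_left_cancel₀ (pow_ne_zero 3 hc0) ?_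
  push_cast at h1 h5
  split_ifs with h
  · rw [if_pos h] at h5
    linear_combination (b : k) * h1 + (d : k) * h5
  · rw [if_neg h] at h5
    linear_combination (b : k) * h1 + (d : k) * h5

/-- **The constituent prime to `p`.** -/
theorem existsUnique_constituent :
    ∃! β : fixedPts φ → ℂ, β ∈ irr (fixedPts φ) ∧ ¬ (p : ℤ) ∣ mult (fixedPts φ) χ β := by
  obtain ⟨k, _, _, ⟨π⟩⟩ := exists_residue (N := Nat.card G) Nat.card_pos hp.out
  obtain ⟨d, hd, hdG⟩ := irr_degree hχ
  choose! b hb hbC using fun (β : fixedPts φ → ℂ) (hβ : β ∈ irr (fixedPts φ)) => irr_degree hβ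
  have hdeg : (d : ℤ) = ∑ β ∈ irr (fixedPts φ), mult (fixedPts φ) χ β * b β := by
    have h := expansion (f := res (fixedPts φ) χ) (fun g x => by
      show χ ((g * x * g⁻¹ : (fixedPts φ)) : G) = χ x
      push_cast
      exact irr_conj hχ _ _) 1
    rw [show res (fixedPts φ) χ 1 = χ ((1 : (fixedPts φ)) : G) from rfl, Subgroup.coe_one, hd] at h
    have h' : ((d : ℤ) : ℂ) = ((∑ β ∈ irr (fixedPts φ), mult (fixedPts φ) χ β * b β : ℤ) : ℂ) := by
      push_cast
      rw [h]
      exact sum_congr rfl fun β hβ => by rw [pairing_comm, mult_spec hχ hβ, hb β hβ]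
    exact_mod_cast h'
  obtain ⟨β, hβ, hβp⟩ : ∃ β ∈ irr (fixedPts φ), ¬ (p : ℤ) ∣ mult (fixedPts φ) χ β := by
    by_contra! h
    refine hco (dvd_trans ?_ hdG)
    rw [← Int.natCast_dvd_natCast, hdeg]
    exact dvd_sum fun β hβ => dvd_mul_of_dvd_left (h β hβ) _
  refine ⟨β, ⟨hβ, hβp⟩, fun γ ⟨hγ, hγp⟩ => by_contra fun hne => ?_⟩
  have h := mult_mul_mult φ hA hco hχ hinv π hd hβ hγ (hb β hβ)
  rw [if_neg (Ne.symm hne)] at h
  have hbk : (b β : k) ≠ 0 := fun h0 => not_dvd_card_fixedPts φ hco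
    (((CharP.cast_eq_zero_iff k p _).1 h0).trans (hbC β hβ))
  rcases mul_eq_zero.1 ((mul_eq_zero.1 h).resolve_right hbk) with h0 | h0
  · exact hβp ((CharP.intCast_eq_zero_iff k p _).1 h0)
  · exact hγp ((CharP.intCast_eq_zero_iff k p _).1 h0)

/-- **The degrees.** -/
theorem degree_congr {β : fixedPts φ → ℂ} (hβ : β ∈ irr (fixedPts φ))
    (hm : ¬ (p : ℤ) ∣ mult (fixedPts φ) χ β) {d b : ℕ} (hd : χ 1 = d) (hb : β 1 = b) :
    (p : ℤ) ∣ d - mult (fixedPts φ) χ β * b := by
  obtain ⟨k, _, _, ⟨π⟩⟩ := exists_residue (N := Nat.card G) Nat.card_pos hp.out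
  have h := mult_mul_mult φ hA hco hχ hinv π hd hβ hβ hb
  rw [if_pos rfl] at h
  have hm' : (mult (fixedPts φ) χ β : k) ≠ 0 := fun h0 =>
    hm ((CharP.intCast_eq_zero_iff k p _).1 h0)
  refine (CharP.intCast_eq_zero_iff k p _).1 (mul_left_cancel₀ hm' ?_)
  push_cast
  linear_combination -h

/-- **Injectivity.** -/
theorem eq_of_constituent {χ' : G → ℂ} (hχ' : χ' ∈ irr G) (hinv' : IsInv φ χ')
    {β : fixedPts φ → ℂ} (hβ : β ∈ irr (fixedPts φ)) (hm : ¬ (p : ℤ) ∣ mult (fixedPts φ) χ β)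
    (hm' : ¬ (p : ℤ) ∣ mult (fixedPts φ) χ' β) : χ = χ' := by
  by_contra hne
  obtain ⟨k, _, _, ⟨π⟩⟩ := exists_residue (N := Nat.card G) Nat.card_pos hp.out
  let F : G → unityRing (Nat.card G) := fun g =>
    ⟨χ g * χ' g⁻¹, mul_mem (irr_mem_unityRing hχ g) (irr_mem_unityRing hχ' g⁻¹)⟩
  have h0 : ∑ g : G, F g = 0 := Subtype.ext (by
    push_cast
    have h := pairing_irr hχ hχ'
    rw [if_neg hne, pairing, inv_mul_eq_iff_eq_mul₀ (Nat.cast_ne_zero.2 Nat.card_pos.ne'),
      mul_zero] at h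
    exact h)
  have hC : ∑ c : fixedPts φ, F c =
      ((Nat.card (fixedPts φ) : ℤ) * ∑ δ ∈ irr (fixedPts φ),
        mult (fixedPts φ) χ δ * mult (fixedPts φ) χ' δ : ℤ) := Subtype.ext (by
    push_cast
    have h := pairing_eq_sum (f := res (fixedPts φ) χ) (fun g x => by
      show χ ((g * x * g⁻¹ : (fixedPts φ)) : G) = χ x
      push_cast
      exact irr_conj hχ _ _) (res (fixedPts φ) χ')
    rw [pairing, inv_mul_eq_iff_eq_mul₀ (Nat.cast_ne_zero.2 Nat.card_pos.ne')] at h
    refine h.trans ?_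
    congr 1
    exact sum_congr rfl fun δ hδ => by
      rw [pairing_comm, mult_spec hχ hδ, pairing_comm, mult_spec hχ' hδ])
  have h1 : ∑ g, π (F g) = ∑ c : fixedPts φ, π (F c) := sum_eq_sum_fixedPts φ hA fun a g =>
    congrArg π (Subtype.ext (by
      show χ (φ a g) * χ' (φ a g)⁻¹ = χ g * χ' g⁻¹
      rw [← map_inv, hinv, hinv']))
  rw [← map_sum, ← map_sum, h0, hC, map_zero, map_intCast, eq_comm,
    CharP.intCast_eq_zero_iff k p] at h1
  have hpp := Nat.prime_iff_prime_int.1 hp.out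
  rcases hpp.dvd_mul.1 h1 with h2 | h2
  · exact not_dvd_card_fixedPts φ hco (Int.natCast_dvd_natCast.1 h2)
  rw [← add_sum_erase _ _ hβ] at h2
  have h3 : (p : ℤ) ∣ ∑ δ ∈ (irr (fixedPts φ)).erase β,
      mult (fixedPts φ) χ δ * mult (fixedPts φ) χ' δ :=
    dvd_sum fun δ hδ => dvd_mul_of_dvd_left (by_contra fun hn => (mem_erase.1 hδ).1
      ((existsUnique_constituent φ hA hco hχ hinv).unique ⟨(mem_erase.1 hδ).2, hn⟩ ⟨hβ, hm⟩)) _
  rcases hpp.dvd_mul.1 ((dvd_add_left h3).1 h2) with h4 | h4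
  · exact hm h4
  · exact hm' h4

omit hχ hinv in
/-- **Surjectivity.** -/
theorem exists_invariant {β : fixedPts φ → ℂ} (hβ : β ∈ irr (fixedPts φ)) :
    ∃ χ ∈ irr G, IsInv φ χ ∧ ¬ (p : ℤ) ∣ mult (fixedPts φ) χ β := by
  by_contra! hall
  obtain ⟨b, hb, hbC⟩ := irr_degree hβ
  choose! d hd using fun (χ : G → ℂ) (hχ : χ ∈ irr G) => (irr_degree hχ).imp fun d h => h.1
  -- reciprocity at `1`
  have hsum : (Nat.card (fixedPts φ) : ℤ) * ∑ χ ∈ irr G, mult (fixedPts φ) χ β * d χ =
      (Nat.card G : ℤ) * b := by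
    have h := expansion (induced_conj β) (1 : G)
    rw [induced, sum_congr rfl fun g _ => dif_pos
        (show g * 1 * g⁻¹ ∈ fixedPts φ by simp [one_mem]), sum_congr rfl fun g _ =>
      show β (⟨g * 1 * g⁻¹, _⟩ : (fixedPts φ)) = β 1 from congrArg β (Subtype.ext (by simp)),
        sum_const,
      card_univ, nsmul_eq_mul, hb, inv_mul_eq_iff_eq_mul₀ (Nat.cast_ne_zero.2 Nat.card_pos.ne'),
      ← Nat.card_eq_fintype_card] at h
    have h' : (((Nat.card G : ℤ) * b : ℤ) : ℂ) =
        (((Nat.card (fixedPts φ) : ℤ) * ∑ χ ∈ irr G, mult (fixedPts φ) χ β * d χ : ℤ) : ℂ) := by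
      push_cast
      rw [h]
      congr 1
      exact sum_congr rfl fun χ hχ => by
        rw [pairing_induced (fixedPts φ) β fun g x => irr_conj hχ g x, ← hd χ hχ, ← mult_spec hχ hβ]
        rfl
    exact (Int.cast_inj.1 h').symm
  letI : MulAction A (G → ℂ) :=
    { smul := fun a χ g => χ (φ a⁻¹ g)
      one_smul := fun χ => funext fun g => show χ (φ 1⁻¹ g) = χ g by simp
      mul_smul := fun a a' χ => funext fun g => show χ (φ (a * a')⁻¹ g) = χ (φ a'⁻¹ (φ a⁻¹ g)) by
        rw [mul_inv_rev, map_mul]; rfl }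
  have hmult : ∀ (a : A), ∀ χ ∈ irr G, mult (fixedPts φ) (a • χ) β = mult (fixedPts φ) χ β :=
    fun a χ hχ => by
    have e : pairing β (res (fixedPts φ) (a • χ)) = pairing β (res (fixedPts φ) χ) :=
      congrArg _ (funext fun c => congrArg χ (c.2 a⁻¹))
    rw [mult_spec (show a • χ ∈ irr G from comp_mem_irr hχ (φ a⁻¹)) hβ, mult_spec hχ hβ] at e
    exact_mod_cast e
  have h0 := sum_eq_sum_fixedPoints (k := ZMod p) hA (irr G)
    (fun a χ hχ => comp_mem_irr hχ (φ a⁻¹))
    (f := fun χ => ((mult (fixedPts φ) χ β * d χ : ℤ) : ZMod p)) fun a χ hχ => by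
      have e : d (a • χ) = d χ := by
        have h := hd _ (show a • χ ∈ irr G from comp_mem_irr hχ (φ a⁻¹))
        rw [show (a • χ) 1 = χ (φ a⁻¹ 1) from rfl, map_one, hd χ hχ] at h
        exact_mod_cast h.symm
      simp only [e, hmult a χ hχ]
  rw [← Int.cast_sum, sum_eq_zero (s := (irr G).filter _) fun χ hχ => by
    obtain ⟨hχi, hfix⟩ := mem_filter.1 hχ
    have hv : IsInv φ χ := fun a g => by
      have h := congrFun (hfix a⁻¹) g
      rw [show (a⁻¹ • χ) g = χ (φ a⁻¹⁻¹ g) from rfl, inv_inv] at h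
      exact h
    rw [ZMod.intCast_zmod_eq_zero_iff_dvd]
    exact dvd_mul_of_dvd_left (hall χ hχi hv) _,
    ZMod.intCast_zmod_eq_zero_iff_dvd] at h0
  have h1 := dvd_mul_of_dvd_right h0 (Nat.card (fixedPts φ) : ℤ)
  rw [hsum, ← Nat.cast_mul, Int.natCast_dvd_natCast] at h1
  rcases hp.out.dvd_mul.1 h1 with h2 | h2
  · exact hco h2
  · exact not_dvd_card_fixedPts φ hco (h2.trans hbC)

end FA.GlaubermanCorrespondence

end
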