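import Fermat.Agent.CNGroups.Values
import Mathlib.GroupTheory.PGroup

/-!
# Sums over the orbits of a `p`-group, and the functional equation of characters

Modulo `p` a sum of an invariant function only sees the fixed points; for an irreducible character
`|G| χ x χ y = χ 1 ∑ χ (x g y g⁻¹)`.
-/

set_option autoImplicit false
set_option linter.style.haveILetI false

noncomputable section

open Finset FA.FrobeniusGroups FA.CharacterTheory
open scoped Classical

namespace FA.GlaubermanCorrespondence

/-- **Only fixed points count.** -/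
theorem sum_eq_sum_fixedPoints {A : Type*} [Group A] [Finite A] {p : ℕ} [hp : Fact p.Prime]
    (hA : IsPGroup p A) {X : Type*} [MulAction A X] (s : Finset X)
    (hs : ∀ (a : A), ∀ x ∈ s, a • x ∈ s) {k : Type*} [CommRing k] [CharP k p] {f : X → k}
    (hf : ∀ (a : A), ∀ x ∈ s, f (a • x) = f x) :
    ∑ x ∈ s, f x = ∑ x ∈ s.filter (fun x => x ∈ MulAction.fixedPoints A X), f x := by
  induction s using Finset.strongInduction with
  | _ s ih =>
  by_cases hall : ∀ x ∈ s, x ∈ MulAction.fixedPoints A X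
  · rw [filter_true_of_mem hall]
  push Not at hall
  obtain ⟨x, hx, hxf⟩ := hall
  set O := s.filter fun y => y ∈ MulAction.orbit A x with hO
  have hOs : O ⊆ s := filter_subset _ _
  have hxO : x ∈ O := mem_filter.2 ⟨hx, MulAction.mem_orbit_self x⟩
  have hsum : ∑ y ∈ O, f y = 0 := by
    have hc : ∀ y ∈ O, f y = f x := fun y hy => by
      obtain ⟨a, rfl⟩ := (mem_filter.1 hy).2
      exact hf a x hx
    haveI : Finite (MulAction.orbit A x) := Set.finite_range _
    obtain ⟨n, hn⟩ := hA.card_orbit x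
    have hcard : O.card = p ^ n := by
      rw [← hn, ← Fintype.card_coe, ← Nat.card_eq_fintype_card]
      exact Nat.card_congr
        { toFun := fun y => ⟨y, (mem_filter.1 y.2).2⟩
          invFun := fun y => ⟨y, mem_filter.2 ⟨by obtain ⟨a, ha⟩ := y.2; exact ha ▸ hs a x hx,
            y.2⟩⟩
          left_inv := fun y => rfl
          right_inv := fun y => rfl }
    have hn0 : n ≠ 0 := fun h0 => hxf fun a => by
      rw [h0, pow_zero, card_eq_one] at hcard
      obtain ⟨z, hz⟩ := hcard
      have h1 : a • x ∈ O := mem_filter.2 ⟨hs a x hx, MulAction.mem_orbit x a⟩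
      rw [hz, Finset.mem_singleton] at h1 hxO
      rw [h1, ← hxO]
    rw [sum_congr rfl hc, sum_const, hcard, nsmul_eq_mul, Nat.cast_pow, CharP.cast_eq_zero,
      zero_pow hn0, zero_mul]
  have hlt : s \ O ⊂ s := Finset.sdiff_ssubset hOs ⟨x, hxO⟩
  rw [← sum_sdiff hOs, hsum, add_zero, ih _ hlt (fun a y hy => ?_)
    fun a y hy => hf a y (mem_sdiff.1 hy).1]
  · refine sum_congr (Finset.ext fun y => ?_) fun _ _ => rfl
    simp only [mem_filter, mem_sdiff, hO, not_and]
    refine ⟨fun h => ⟨h.1.1, h.2⟩, fun h => ⟨⟨h.1, fun _ hyo => hxf ?_⟩, h.2⟩⟩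
    obtain ⟨a, ha⟩ := MulAction.mem_orbit_symm.1 hyo
    have hax : y = x := by rw [← ha]; exact (h.2 a).symm
    exact hax ▸ h.2
  · obtain ⟨hys, hyO⟩ := mem_sdiff.1 hy
    refine mem_sdiff.2 ⟨hs a y hys, fun h => hyO (mem_filter.2 ⟨hys, ?_⟩)⟩
    obtain ⟨b, hb⟩ := (mem_filter.1 h).2
    refine ⟨a⁻¹ * b, ?_⟩
    simp only at hb ⊢
    rw [mul_smul, hb, inv_smul_smul]

variable {G : Type*} [Group G] [Fintype G]

/-- **The functional equation.** -/
theorem card_mul_mul {χ : G → ℂ} (hχ : χ ∈ irr G) (x y : G) :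
    (Nat.card G : ℂ) * (χ x * χ y) = χ 1 * ∑ g : G, χ (x * (g * y * g⁻¹)) := by
  obtain ⟨W, hW, rfl⟩ := exists_of_mem_irr hχ
  haveI := hW
  set ρ := W.toRepresentation
  set T : Module.End ℂ W.toSubmodule := ∑ g : G, ρ (g * y * g⁻¹)
  have hcomm : ∀ h, T ∘ₗ ρ h = ρ h ∘ₗ T := fun h => by
    show T * ρ h = ρ h * T
    simp only [T, sum_mul, mul_sum, ← map_mul]
    refine Fintype.sum_equiv (Equiv.mulLeft h⁻¹) _ _ fun g => ?_
    simp only [Equiv.coe_mulLeft]
    congr 1
    group
  obtain ⟨w, hw⟩ :=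
    (Representation.IsIrreducible.algebraMap_intertwiningMap_bijective_of_isAlgClosed
      (ρ := ρ)).2 ⟨T, hcomm⟩
  have hT : T = algebraMap ℂ (Module.End ℂ W.toSubmodule) w :=
    (congrArg Representation.IntertwiningMap.toLinearMap hw).symm
  have htr := congrArg (LinearMap.trace ℂ W.toSubmodule) hT
  have htr' : (Nat.card G : ℂ) * ρ.character y = w * ρ.character 1 := by
    simp only [T, map_sum, Algebra.algebraMap_eq_smul_one, map_smul, LinearMap.trace_one,
      smul_eq_mul] at htr
    rw [Representation.char_one]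
    refine Eq.trans ?_ htr
    rw [sum_congr rfl fun g _ => show LinearMap.trace ℂ W.toSubmodule (ρ (g * y * g⁻¹)) =
      ρ.character y from ρ.char_conj y g, sum_const,
      card_univ, nsmul_eq_mul, Nat.card_eq_fintype_card]
  have hsum : ∑ g : G, ρ.character (x * (g * y * g⁻¹)) = w * ρ.character x := by
    have h1 : ∑ g : G, ρ.character (x * (g * y * g⁻¹)) =
        LinearMap.trace ℂ W.toSubmodule (ρ x * T) := by
      simp only [T, mul_sum, map_sum, ← map_mul]
      rfl
    rw [h1, hT, Algebra.algebraMap_eq_smul_one, mul_smul_comm, mul_one, map_smul, smul_eq_mul]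
    rfl
  rw [hsum, ← mul_assoc, mul_comm (Nat.card G : ℂ) (ρ.character x), mul_assoc, htr']
  ring

/-- An irreducible character composed with an automorphism. -/
theorem comp_mem_irr {χ : G → ℂ} (hχ : χ ∈ irr G) (σ : MulAut G) :
    (fun g => χ (σ g)) ∈ irr G := by
  obtain ⟨W, -, rfl⟩ := exists_of_mem_irr hχ
  refine mem_irr_of_norm (W.toRepresentation.comp σ.toMonoidHom) ?_
  have h := pairing_irr hχ hχ
  rw [if_pos rfl] at h
  rw [← h]
  simp only [pairing]
  congr 1
  exact Fintype.sum_equiv σ.toEquiv _ _ fun g => by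
    show _ = W.toRepresentation.character (σ g) * W.toRepresentation.character (σ g)⁻¹
    rw [← map_inv]
    rfl

end FA.GlaubermanCorrespondence

end
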